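import Fermat.Agent.Gaboriau.Cost
import Mathlib.MeasureTheory.Constructions.Polish.Basic
import Mathlib.Probability.ProductMeasure
import Mathlib.Probability.Distributions.Uniform

/-!
# Orbit equivalence of free group actions

An orbit equivalence pulls the generators back to a graphing of total measure the number of
generators, so the cost distinguishes the actions. The shifts on fair coins are free.
-/

set_option autoImplicit false

noncomputable section

open MeasureTheory Filter Topology FreeGroup Set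
open scoped ENNReal

namespace FA.Gaboriau

section transport

variable {α β X Y : Type*} [Fintype α] [Fintype β] [MeasurableSpace X] [MeasurableSpace Y]
  [StandardBorelSpace Y] [MulAction (FreeGroup α) X] [MulAction (FreeGroup β) Y] {μ : Measure X}
  [IsProbabilityMeasure μ]

/-- Orbit maps do not lower the number of generators. -/
theorem card_le_of_orbit_map
    (hpres : ∀ g : FreeGroup α, MeasurePreserving (fun x : X => g • x) μ μ)
    (hfree : ∀ g : FreeGroup α, g ≠ 1 → ∀ᵐ x ∂μ, g • x ≠ x)
    (hsm : ∀ h : FreeGroup β, Measurable fun y : Y => h • y)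
    {X₀ : Set X} {Y₀ : Set Y} {Φ : X → Y} {Ψ : Y → X} (hX : MeasurableSet X₀) (hX0 : μ X₀ᶜ = 0)
    (hXi : ∀ g : FreeGroup α, ∀ x ∈ X₀, g • x ∈ X₀) (hYi : ∀ h : FreeGroup β, ∀ y ∈ Y₀, h • y ∈ Y₀)
    (hΦ : Measurable Φ) (hΦY : MapsTo Φ X₀ Y₀) (hΨX : MapsTo Ψ Y₀ X₀)
    (hl : ∀ x ∈ X₀, Ψ (Φ x) = x) (hr : ∀ y ∈ Y₀, Φ (Ψ y) = y)
    (horb : ∀ x ∈ X₀, ∀ x' ∈ X₀,
      (∃ g : FreeGroup α, g • x = x') ↔ ∃ h : FreeGroup β, h • Φ x = Φ x') :
    Fintype.card α ≤ Fintype.card β := by
  let A : β × FreeGroup α → Set X := fun p =>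
    X₀ ∩ {x | Φ (p.2 • x) = FreeGroup.of p.1 • Φ x}
  have hA : ∀ p, MeasurableSet (A p) := fun p => hX.inter
    (measurableSet_eq_fun (hΦ.comp (hpres _).measurable) ((hsm _).comp hΦ))
  have hpath : ∀ h : FreeGroup β, ∀ z ∈ X₀,
      Connected A (fun p => p.2) z (Ψ (h • Φ z)) := by
    intro h
    induction h using FreeGroup.induction_on with
    | C1 => exact fun z hz => by rw [one_smul, hl z hz]; exact Relation.EqvGen.refl z
    | of b =>
      intro z hz
      have hw := hYi (FreeGroup.of b) _ (hΦY hz)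
      obtain ⟨g, hg⟩ := (horb z hz _ (hΨX hw)).2 ⟨FreeGroup.of b, (hr _ hw).symm⟩
      refine Relation.EqvGen.rel _ _ ⟨(b, g), ⟨hz, ?_⟩, hg⟩
      show Φ (g • z) = _
      rw [hg, hr _ hw]
    | inv_of b ih =>
      intro z hz
      have hw := hYi (FreeGroup.of b)⁻¹ _ (hΦY hz)
      have := ih _ (hΨX hw)
      rw [hr _ hw, smul_inv_smul, hl z hz] at this
      exact Relation.EqvGen.symm _ _ this
    | mul h₁ h₂ i₁ i₂ =>
      intro z hz
      have hw := hYi h₂ _ (hΦY hz)
      have := i₁ _ (hΨX hw)
      rw [hr _ hw, ← mul_smul] at this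
      exact Relation.EqvGen.trans _ _ _ (i₂ z hz) this
  have hconn : ∀ᵐ x ∂μ, ∀ a : α,
      Connected A (fun p => p.2) x (FreeGroup.of a • x) := by
    filter_upwards [mem_ae_iff.2 hX0] with x hx a
    have hx' := hXi (FreeGroup.of a) x hx
    obtain ⟨h, hh⟩ := (horb x hx _ hx').1 ⟨FreeGroup.of a, rfl⟩
    have := hpath h x hx
    rwa [hh, hl _ hx'] at this
  have hdis : ∀ b, Pairwise fun g g' => AEDisjoint μ (A (b, g)) (A (b, g')) := fun b g g' hne => by
    refine measure_eq_zero_iff_ae_notMem.2 ?_
    filter_upwards [hfree (g'⁻¹ * g) (fun h => hne (inv_mul_eq_one.1 h).symm)] with x hx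
    rintro ⟨⟨hxX, h1⟩, -, h2⟩
    refine hx ?_
    rw [mul_smul, inv_smul_eq_iff, ← hl _ (hXi g x hxX), ← hl _ (hXi g' x hxX),
      show Φ (g • x) = Φ (g' • x) from h1.trans h2.symm]
  have h1 := card_le_tsum (μ := μ) hpres hfree hA hconn
  have h2 : ∑' p, μ (A p) ≤ Fintype.card β := by
    rw [ENNReal.tsum_prod', tsum_fintype]
    refine (Finset.sum_le_sum fun b _ => ?_).trans_eq
      (show ∑ _b : β, (1 : ℝ≥0∞) = Fintype.card β by simp)
    rw [← measure_iUnion₀ (hdis b) fun g => (hA (b, g)).nullMeasurableSet]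
    exact prob_le_one
  exact_mod_cast h1.trans h2

end transport

section shift

variable {α : Type*}

/-- The shift of a group on colourings of itself. -/
def groupShift {G C : Type*} [Group G] (g : G) (x : G → C) : G → C := fun h => x (g⁻¹ * h)

/-- The shifts form an action. -/
@[reducible] def shiftAction (G C : Type*) [Group G] : MulAction G (G → C) where
  smul := groupShift
  one_smul x := funext fun h => by
    show x ((1 : G)⁻¹ * h) = x h
    rw [inv_one, one_mul]
  mul_smul g g' x := funext fun h => by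
    show x ((g * g')⁻¹ * h) = x (g'⁻¹ * (g⁻¹ * h))
    rw [mul_inv_rev, mul_assoc]

/-- The fair coins on a free group. -/
def coins (α : Type*) : Measure (FreeGroup α → Bool) :=
  Measure.infinitePi fun _ => (PMF.uniformOfFintype Bool).toMeasure

instance : IsProbabilityMeasure (coins α) := by
  unfold coins
  infer_instance

theorem measurePreserving_shift (g : FreeGroup α) :
    MeasurePreserving (groupShift g) (coins α) (coins α) := by
  classical
  have hm : Measurable (groupShift g : (FreeGroup α → Bool) → FreeGroup α → Bool) :=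
    measurable_pi_lambda _ fun _ => measurable_pi_apply _
  refine ⟨hm, Measure.eq_infinitePi _ fun s t ht => ?_⟩
  rw [Measure.map_apply hm (.pi s.countable_toSet fun i _ => ht i)]
  have e : (groupShift g : (FreeGroup α → Bool) → FreeGroup α → Bool) ⁻¹' Set.pi s t =
      Set.pi (s.image fun i => g⁻¹ * i : Finset (FreeGroup α)) fun i => t (g * i) := by
    ext x
    simp only [groupShift, Set.mem_preimage, Set.mem_pi, Finset.coe_image, Set.forall_mem_image,
      Finset.mem_coe, mul_inv_cancel_left]
  rw [e, coins, Measure.infinitePi_pi _ fun i _ => ht (g * i),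
    Finset.prod_image (fun a _ b _ h => mul_left_cancel h)]
  simp

theorem exists_spread [Infinite (FreeGroup α)] {g : FreeGroup α} (hg : g ≠ 1) (n : ℕ) :
    ∃ S : Finset (FreeGroup α), S.card = n ∧ ∀ h ∈ S, ∀ h' ∈ S, g⁻¹ * h ≠ h' := by
  classical
  induction n with
  | zero => exact ⟨∅, rfl, fun h hh => absurd hh (Finset.notMem_empty h)⟩
  | succ n ih =>
    obtain ⟨S, hS, hd⟩ := ih
    obtain ⟨k, hk⟩ :=
      Infinite.exists_notMem_finset (S ∪ S.image (g * ·) ∪ S.image (g⁻¹ * ·))
    simp only [Finset.mem_union, Finset.mem_image, not_or, not_exists, not_and] at hk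
    refine ⟨insert k S, by rw [Finset.card_insert_of_notMem hk.1.1, hS], fun h hh h' hh' he => ?_⟩
    rcases Finset.mem_insert.1 hh with e | hh <;> rcases Finset.mem_insert.1 hh' with e' | hh'
    · exact hg (inv_eq_one.1 (mul_eq_right.1 (he.trans (e'.trans e.symm))))
    · exact hk.1.2 h' hh' (by rw [← he, e, mul_inv_cancel_left])
    · exact hk.2 h hh (he.trans e')
    · exact hd h hh h' hh' he

theorem ae_shift_ne {g : FreeGroup α} (hg : g ≠ 1) :
    ∀ᵐ x ∂coins α, groupShift g x ≠ x := by
  classical
  have : Nonempty α := not_isEmpty_iff.1 fun _ => hg (Subsingleton.elim _ _)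
  rw [ae_iff]
  simp only [not_not]
  refine (measureReal_eq_zero_iff).1 (le_antisymm (ge_of_tendsto
    (tendsto_pow_atTop_nhds_zero_of_lt_one one_half_pos.le (one_half_lt_one (α := ℝ)))
    (Eventually.of_forall fun n => ?_)) measureReal_nonneg)
  obtain ⟨S, hS, hd⟩ := exists_spread hg n
  let T := S ∪ S.image (g⁻¹ * ·)
  have hcard : T.card = 2 * n := by
    rw [Finset.card_union_of_disjoint, Finset.card_image_of_injective _ (mul_right_injective _),
      hS, two_mul]
    refine Finset.disjoint_left.2 fun h hh hh' => ?_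
    obtain ⟨h', hh'', rfl⟩ := Finset.mem_image.1 hh'
    exact hd h' hh'' _ hh rfl
  have hsub : {x : FreeGroup α → Bool | groupShift g x = x} ⊆ ⋃ f : S → Bool,
      Set.pi ↑T fun k => if hk : k ∈ S then {f ⟨k, hk⟩} else
        if hk' : g * k ∈ S then {f ⟨g * k, hk'⟩} else univ := fun x hx => by
    refine mem_iUnion.2 ⟨fun k => x k, fun k hk => ?_⟩
    simp only
    split_ifs with h1 h2
    · rfl
    · have := congrFun (show groupShift g x = x from hx) (g * k)
      simp only [groupShift, inv_mul_cancel_left] at this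
      simp [this]
    · trivial
  refine (measureReal_mono hsub).trans ((measureReal_iUnion_fintype_le _).trans ?_)
  have hone : ∀ f : S → Bool, (coins α).real (Set.pi ↑T fun k => if hk : k ∈ S then {f ⟨k, hk⟩}
      else if hk' : g * k ∈ S then {f ⟨g * k, hk'⟩} else univ) = (1 / 2) ^ (2 * n) := fun f => by
    rw [measureReal_def, coins, Measure.infinitePi_pi _ fun k _ => ?_, ENNReal.toReal_prod,
      Finset.prod_congr rfl fun k hk => ?_, Finset.prod_const, hcard]
    · simp only [T, Finset.mem_union, Finset.mem_image] at hk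
      rcases hk with hk | ⟨h, hh, rfl⟩
      · simp [hk]
      · have h1 : g⁻¹ * h ∉ S := fun h' => hd h hh _ h' rfl
        simp [h1, hh]
    · exact (Set.to_countable _).measurableSet
  simp only [hone, Finset.sum_const, Finset.card_univ, Fintype.card_fun, Fintype.card_bool,
    Fintype.card_coe, hS, nsmul_eq_mul, Nat.cast_pow, Nat.cast_ofNat]
  rw [pow_mul, ← mul_pow]
  exact le_of_eq (congrArg (· ^ n) (by norm_num))

end shift

end FA.Gaboriau

end
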