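import Fermat.Agent.Gaboriau.Folding
import Mathlib.SetTheory.Cardinal.Free

/-!
# Gaboriau's theorem on the cost of free group actions

A finite graphing is subdivided along the words of its pieces and folded onto the orbit trees. A
countable graphing is nearly a finite one.
-/

set_option autoImplicit false

noncomputable section

open MeasureTheory Filter Topology FreeGroup
open scoped ENNReal

namespace FA.Gaboriau

variable {α X ι : Type*} [MeasurableSpace X] [MulAction (FreeGroup α) X]

/-- One step of the pieces `x ↦ g j • x`, `x ∈ A j`. -/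
def Step (A : ι → Set X) (g : ι → FreeGroup α) (x y : X) : Prop := ∃ j, x ∈ A j ∧ g j • x = y

/-- Connected by the pieces. -/
def Connected (A : ι → Set X) (g : ι → FreeGroup α) (x y : X) : Prop :=
  Relation.EqvGen (Step A g) x y

section finite

variable {μ : Measure X} [IsProbabilityMeasure μ] [Fintype α] [DecidableEq α] [Fintype ι]

/-- **Gaboriau's inequality for finitely many pieces.** -/
theorem card_le_sum (hpres : ∀ g : FreeGroup α, MeasurePreserving (fun x : X => g • x) μ μ)
    (hfree : ∀ g : FreeGroup α, g ≠ 1 → ∀ᵐ x ∂μ, g • x ≠ x) {A : ι → Set X}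
    (hA : ∀ j, MeasurableSet (A j)) (g : ι → FreeGroup α)
    (hconn : ∀ᵐ x ∂μ, ∀ a : α, Connected A g x (FreeGroup.of a • x)) :
    (Fintype.card α : ℝ) ≤ ∑ j, μ.real (A j) := by
  classical
  let L : ι → List (α × Bool) := fun j => (g j).toWord
  let V := Option (Σ j, Fin ((L j).length - 1))
  let E := Σ j, Fin (L j).length
  let node : ι → ℕ → V := fun j k =>
    if h : 0 < k ∧ k < (L j).length then some ⟨j, ⟨k - 1, by omega⟩⟩ else none
  let pre : ι → ℕ → FreeGroup α := fun j k => FreeGroup.mk ((L j).drop k)
  have hpre : ∀ j (i : Fin (L j).length),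
      pre j i = FreeGroup.mk [(L j)[(i : ℕ)]] * pre j (i + 1) := fun j i => by
    simp only [pre, FreeGroup.mul_mk, List.singleton_append, ← List.drop_eq_getElem_cons i.2]
  let base : E → ℕ := fun e => if ((L e.1)[(e.2 : ℕ)]).2 then e.2 + 1 else e.2
  let pe : X → E → Bool := fun y e => decide ((pre e.1 (base e))⁻¹ • y ∈ A e.1)
  let pv : X → V → Bool := fun y v => match v with
    | none => true
    | some u => decide ((pre u.1 (u.2 + 1))⁻¹ • y ∈ A u.1)
  have hpv : ∀ y j k, (pre j k)⁻¹ • y ∈ A j → pv y (node j k) = true := fun y j k hy => by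
    simp only [node]
    split_ifs with h
    · simp only [pv, decide_eq_true_eq, Nat.sub_add_cancel h.1]
      exact hy
    · rfl
  have hdec : ∀ (h : FreeGroup α) (B : Set X), MeasurableSet B →
      Measurable fun y => decide (h⁻¹ • y ∈ B) := fun h B hB =>
    measurable_to_countable' fun b => by
      cases b
      · rw [show (fun y => decide (h⁻¹ • y ∈ B)) ⁻¹' {false} = (fun y => h⁻¹ • y) ⁻¹' Bᶜ by
          ext y; simp]
        exact (hpres _).measurable hB.compl
      · rw [show (fun y => decide (h⁻¹ • y ∈ B)) ⁻¹' {true} = (fun y => h⁻¹ • y) ⁻¹' B by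
          ext y; simp]
        exact (hpres _).measurable hB
  let S : Sys α X V E :=
    { lab := fun e => ((L e.1)[(e.2 : ℕ)]).1
      src := fun e => if ((L e.1)[(e.2 : ℕ)]).2 then node e.1 (e.2 + 1) else node e.1 e.2
      tgt := fun e => if ((L e.1)[(e.2 : ℕ)]).2 then node e.1 e.2 else node e.1 (e.2 + 1)
      pv := pv
      pe := pe
      pv_meas := measurable_pi_lambda _ fun v => by
        cases v with
        | none => exact measurable_const
        | some u => exact hdec _ _ (hA _)
      pe_meas := measurable_pi_lambda _ fun e => hdec _ _ (hA _)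
      src_mem := fun y e he => by
        simp only [pe, base, decide_eq_true_eq] at he
        split_ifs with hb
        · exact hpv y _ _ (by simpa [hb] using he)
        · exact hpv y _ _ (by simpa [hb] using he)
      tgt_mem := fun y e he => by
        simp only [pe, base, decide_eq_true_eq] at he
        obtain ⟨j, i⟩ := e
        have hp := hpre j i
        rcases hl : (L j)[(i : ℕ)] with ⟨a, b⟩
        rw [hl] at hp
        cases b
        · simp only [hl, Bool.false_eq_true, if_false] at he ⊢
          refine hpv _ _ _ ?_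
          rw [show pre j (i + 1) = FreeGroup.of a * pre j i by
              rw [hp, show FreeGroup.mk [(a, false)] = (FreeGroup.of a)⁻¹ from rfl,
                mul_inv_cancel_left],
            mul_inv_rev, mul_smul, inv_smul_smul]
          exact he
        · simp only [hl, if_true] at he ⊢
          refine hpv _ _ _ ?_
          rw [hp, show FreeGroup.mk [(a, true)] = FreeGroup.of a from rfl, mul_inv_rev, mul_smul,
            inv_smul_smul]
          exact he }
  have hwalk : ∀ j, ∀ z ∈ A j, ∀ k, k ≤ (L j).length →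
      S.Walk (fun _ => id) ((L j).drop k) (z, none) (pre j k • z, node j k) := by
    intro j z hz k hk
    induction hd : (L j).length - k generalizing k with
    | zero =>
      obtain rfl : k = (L j).length := by omega
      rw [List.drop_length]
      refine Prod.ext ?_ ?_
      · simp [pre, ← FreeGroup.one_eq_mk]
      · simp [node]
    | succ d ih =>
      have hk' : k < (L j).length := by omega
      have hp := hpre j ⟨k, hk'⟩
      rw [List.drop_eq_getElem_cons hk']
      refine ⟨_, ih (k + 1) (by omega) (by omega), ?_⟩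
      rcases hl : (L j)[k] with ⟨a, b⟩
      simp only [hl] at hp
      cases b
      · refine ⟨⟨j, ⟨k, hk'⟩⟩, ?_, ?_, ?_, ?_, ?_⟩
        · simp [S, pe, base, hl, hz]
        · simp [S, hl]
        · show pre j (k + 1) • z = FreeGroup.of a • pre j k • z
          rw [smul_smul, hp, show FreeGroup.mk [(a, false)] = (FreeGroup.of a)⁻¹ from rfl,
            mul_inv_cancel_left]
        · simp [S, hl]
        · simp [S, hl]
      · refine ⟨⟨j, ⟨k, hk'⟩⟩, ?_, ?_, ?_, ?_, ?_⟩
        · simp [S, pe, base, hl, hz]
        · simp [S, hl]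
        · show pre j k • z = FreeGroup.of a • pre j (k + 1) • z
          rw [smul_smul, hp]
          rfl
        · simp [S, hl]
        · simp [S, hl]
  have hconn' : ∀ x y, Connected A g x y → ∃ M, S.Walk (fun _ => id) M (x, none) (y, none) := by
    intro x y hxy
    induction hxy with
    | rel x y h =>
      obtain ⟨j, hj, rfl⟩ := h
      refine ⟨L j, ?_⟩
      have := hwalk j x hj 0 (Nat.zero_le _)
      simpa [node, pre, L, FreeGroup.mk_toWord] using this
    | refl x => exact ⟨[], rfl⟩
    | symm x y _ ih =>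
      obtain ⟨M, hM⟩ := ih
      exact ⟨_, hM.rev⟩
    | trans x y z _ _ ih ih' =>
      obtain ⟨M, hM⟩ := ih
      obtain ⟨M', hM'⟩ := ih'
      exact ⟨M' ++ M, Sys.walk_append.2 ⟨_, hM, hM'⟩⟩
  have hreach : ∀ y v, S.pv y v = true →
      ∃ z M, S.Walk (fun _ => id) M (z, none) (y, v) := fun y v hv => by
    cases v with
    | none => exact ⟨y, [], rfl⟩
    | some u =>
      simp only [S, pv, decide_eq_true_eq] at hv
      refine ⟨(pre u.1 (u.2 + 1))⁻¹ • y, (L u.1).drop (u.2 + 1), ?_⟩
      have := hwalk u.1 _ hv (u.2 + 1) (by omega)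
      rw [smul_inv_smul, show node u.1 (u.2 + 1) = some u by
        simp only [node]
        rw [dif_pos ⟨Nat.succ_pos _, by omega⟩]
        simp] at this
      exact this
  have hall : ∀ᵐ x ∂μ, ∀ (h : FreeGroup α) (a : α),
      Connected A g (h • x) (FreeGroup.of a • h • x) :=
    ae_all_iff.2 fun h => (hpres h).quasiMeasurePreserving.ae hconn
  have hae : ∀ᵐ x ∂μ, (∀ h : FreeGroup α, h ≠ 1 → h • x ≠ x) ∧
      ∀ h : FreeGroup α, ∃ M, S.Walk (fun _ => id) M (x, none) (h • x, none) := by
    filter_upwards [hall, ae_all_iff.2 fun h : FreeGroup α =>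
      (if hh : h = 1 then Eventually.of_forall fun x hne => absurd hh hne
        else (hfree h hh).mono fun x hx _ => hx : ∀ᵐ x ∂μ, h ≠ 1 → h • x ≠ x)] with x hx hfr
    refine ⟨hfr, fun h => hconn' _ _ ?_⟩
    suffices key : ∀ h h' : FreeGroup α, Connected A g (h' • x) (h • h' • x) by
      simpa using key h 1
    intro h
    induction h using FreeGroup.induction_on with
    | C1 => exact fun h' => by rw [one_smul]; exact Relation.EqvGen.refl _
    | of a => exact fun h' => hx h' a
    | inv_of a _ =>
      intro h'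
      refine Relation.EqvGen.symm _ _ ?_
      have := hx ((FreeGroup.of a)⁻¹ * h') a
      rwa [mul_smul, smul_inv_smul] at this
    | mul h₁ h₂ i₁ i₂ =>
      intro h'
      rw [mul_smul]
      refine Relation.EqvGen.trans _ _ _ (i₂ h') ?_
      rw [← mul_smul h₂ h' x]
      exact i₁ _
  let _ : MeasurableSpace V := ⊤
  have : DiscreteMeasurableSpace V := ⟨fun _ => trivial⟩
  have main := Sys.card_le_excess (μ := μ) hpres S none (fun _ => rfl) hreach hae
  have hmeas : ∀ (h : FreeGroup α) (j : ι), μ.real ((fun y => h⁻¹ • y) ⁻¹' A j) = μ.real (A j) :=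
    fun h j => congrArg ENNReal.toReal ((hpres _).measure_preimage (hA j).nullMeasurableSet)
  have hind : ∀ (h : FreeGroup α) (j : ι), Integrable
      (((fun y => h⁻¹ • y) ⁻¹' A j).indicator fun _ => (1 : ℝ)) μ := fun h j =>
    (integrable_const 1).indicator ((hpres _).measurable (hA j))
  have hec : (∫ y, (S.ec (fun _ => id) y : ℝ) ∂μ) ≤ ∑ e : E, μ.real (A e.1) := by
    have e1 : ∀ e : E, ∫ y, ((fun y => (pre e.1 (base e))⁻¹ • y) ⁻¹' A e.1).indicator
        (fun _ => (1 : ℝ)) y ∂μ = μ.real (A e.1) := fun e => by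
      rw [integral_indicator_const _ ((hpres _).measurable (hA _)), smul_eq_mul, mul_one, hmeas]
    rw [← Finset.sum_congr rfl fun e _ => e1 e, ← integral_finsetSum _ fun e _ => hind _ _]
    refine integral_mono (Sys.integrable_counts S (fun h => (hpres h).measurable)
      measurable_const).2 (integrable_finsetSum _ fun e _ => hind _ _) fun y => ?_
    simp only [Set.indicator_apply, Set.mem_preimage, Finset.sum_boole, Nat.cast_le, Sys.ec]
    refine Finset.card_image_le.trans (le_of_eq ?_)
    congr 1
    ext e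
    simp [S, pe]
  have hcl : (∫ y, (S.cl (fun _ => id) y : ℝ) ∂μ) =
      1 + ∑ u : Σ j, Fin ((L j).length - 1), μ.real (A u.1) := by
    have e1 : ∀ u : Σ j, Fin ((L j).length - 1),
        ∫ y, ((fun y => (pre u.1 (u.2 + 1))⁻¹ • y) ⁻¹' A u.1).indicator (fun _ => (1 : ℝ)) y ∂μ =
          μ.real (A u.1) := fun u => by
      rw [integral_indicator_const _ ((hpres _).measurable (hA _)), smul_eq_mul, mul_one, hmeas]
    have e2 : ∀ F : X → ℝ, Integrable F μ → (∫ y, 1 + F y ∂μ) = 1 + ∫ y, F y ∂μ := fun F hF => by
      rw [integral_add (integrable_const 1) hF]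
      simp
    rw [← Finset.sum_congr rfl fun u _ => e1 u, ← integral_finsetSum _ fun u _ => hind _ _,
      ← e2 _ (integrable_finsetSum _ fun u _ => hind _ _)]
    refine integral_congr_ae (Eventually.of_forall fun y => ?_)
    simp only [Sys.cl, Finset.image_id, Finset.card_filter, Set.indicator_apply, Set.mem_preimage,
      Nat.cast_sum]
    refine (Fintype.sum_option (α := Σ j, Fin ((L j).length - 1)) _).trans
      (congrArg₂ (· + ·) (by simp [S, pv]) (Finset.sum_congr rfl fun u _ => ?_))
    by_cases hu : (pre u.1 (u.2 + 1))⁻¹ • y ∈ A u.1 <;> simp [S, pv, hu]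
  have hfin : (∑ e : E, μ.real (A e.1)) ≤
      (∑ u : Σ j, Fin ((L j).length - 1), μ.real (A u.1)) + ∑ j, μ.real (A j) := by
    rw [Fintype.sum_sigma, Fintype.sum_sigma, ← Finset.sum_add_distrib]
    refine Finset.sum_le_sum fun j _ => ?_
    simp only [Finset.sum_const, Finset.card_univ, Fintype.card_fin, nsmul_eq_mul]
    have : ((L j).length : ℝ) ≤ (((L j).length - 1 : ℕ) : ℝ) + 1 := by
      exact_mod_cast (show (L j).length ≤ (L j).length - 1 + 1 by omega)
    nlinarith [measureReal_nonneg (μ := μ) (s := A j)]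
  linarith

end finite

/-- The group element of a signed piece. -/
def letter (g : ι → FreeGroup α) (l : ι × Bool) : FreeGroup α := if l.2 then g l.1 else (g l.1)⁻¹

/-- The points at which a list of signed pieces applies, from its end. -/
def valid (A : ι → Set X) (g : ι → FreeGroup α) : List (ι × Bool) → Set X
  | [] => Set.univ
  | l :: M => valid A g M ∩
      {x | ((if l.2 then 1 else (g l.1)⁻¹) * (M.map (letter g)).prod) • x ∈ A l.1}

variable {A : ι → Set X} {g : ι → FreeGroup α}

theorem measurableSet_valid (hsm : ∀ g : FreeGroup α, Measurable fun x : X => g • x)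
    (hA : ∀ j, MeasurableSet (A j)) : ∀ M, MeasurableSet (valid A g M)
  | [] => MeasurableSet.univ
  | l :: M => (measurableSet_valid hsm hA M).inter (hsm _ (hA l.1))

omit [MeasurableSpace X] in
theorem exists_valid {x y : X} (h : Connected A g x y) :
    ∃ M, x ∈ valid A g M ∧ (M.map (letter g)).prod • x = y := by
  suffices ∀ u v, Connected A g u v → ((∃ M, x ∈ valid A g M ∧ (M.map (letter g)).prod • x = u) ↔
      ∃ M, x ∈ valid A g M ∧ (M.map (letter g)).prod • x = v) from
    (this x y h).1 ⟨[], trivial, by simp⟩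
  intro u v huv
  induction huv with
  | rel u v h =>
    obtain ⟨j, hj, rfl⟩ := h
    constructor <;> rintro ⟨M, hM, he⟩
    · exact ⟨(j, true) :: M, ⟨hM, by simpa [he] using hj⟩, by simp [letter, mul_smul, he]⟩
    · refine ⟨(j, false) :: M, ⟨hM, ?_⟩, by simp [letter, mul_smul, he]⟩
      show ((g j)⁻¹ * _) • x ∈ A j
      rwa [mul_smul, he, inv_smul_smul]
  | refl => exact Iff.rfl
  | symm _ _ _ ih => exact ih.symm
  | trans _ _ _ _ _ ih ih' => exact ih.trans ih'

omit [MeasurableSpace X] in
theorem connected_of_valid {κ : Type*} (f : κ → ι) : ∀ M : List (ι × Bool),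
    (∀ l ∈ M, ∃ k, f k = l.1) → ∀ x ∈ valid A g M,
      Connected (A ∘ f) (g ∘ f) x ((M.map (letter g)).prod • x)
  | [], _, x, _ => by
    rw [List.map_nil, List.prod_nil, one_smul]
    exact Relation.EqvGen.refl x
  | (j, b) :: M, hM, x, hx => by
    refine Relation.EqvGen.trans _ _ _ (connected_of_valid f M
      (fun l hl => hM l (List.mem_cons_of_mem _ hl)) x hx.1) ?_
    obtain ⟨k, rfl : f k = j⟩ := hM (j, b) List.mem_cons_self
    rw [List.map_cons, List.prod_cons, mul_smul]
    cases b
    · have h2 : (g (f k))⁻¹ • (M.map (letter g)).prod • x ∈ A (f k) := by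
        rw [← mul_smul]; exact hx.2
      exact Relation.EqvGen.symm _ _ (Relation.EqvGen.rel _ _ ⟨k, h2, smul_inv_smul _ _⟩)
    · refine Relation.EqvGen.rel _ _ ⟨k, ?_, rfl⟩
      have h2 : ((1 : FreeGroup α) * (M.map (letter g)).prod) • x ∈ A (f k) := hx.2
      rwa [one_mul] at h2

variable [Fintype α] {μ : Measure X} [IsProbabilityMeasure μ] [Countable ι]

/-- **Gaboriau's inequality.** The pieces connecting almost every orbit of a free action of a free
group have total measure at least the number of generators. -/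
theorem card_le_tsum (hpres : ∀ g : FreeGroup α, MeasurePreserving (fun x : X => g • x) μ μ)
    (hfree : ∀ g : FreeGroup α, g ≠ 1 → ∀ᵐ x ∂μ, g • x ≠ x) (hA : ∀ j, MeasurableSet (A j))
    (hconn : ∀ᵐ x ∂μ, ∀ a : α, Connected A g x (FreeGroup.of a • x)) :
    (Fintype.card α : ℝ≥0∞) ≤ ∑' j, μ (A j) := by
  classical
  have hsm := fun h => (hpres h).measurable
  let _ : Encodable ι := Encodable.ofCountable ι
  let P : ℕ → Finset (List (ι × Bool)) := fun n =>
    (Finset.range n).biUnion fun i => (Encodable.decode (α := List (ι × Bool)) i).toFinset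
  let J : ℕ → Finset ι := fun n => (P n).biUnion fun M => (M.map Prod.fst).toFinset
  let U : ℕ → α → Set X := fun n a => ⋃ M ∈ P n, ⋃ (_ : (M.map (letter g)).prod = FreeGroup.of a),
    valid A g M
  have hUm : ∀ n a, MeasurableSet (U n a) := fun n a => Finset.measurableSet_biUnion _ fun M _ =>
    MeasurableSet.iUnion fun _ => measurableSet_valid hsm hA M
  have hmono : ∀ a, Monotone fun n => U n a := fun a m n hmn => by
    refine Set.iUnion₂_subset fun M hM => Set.subset_biUnion_of_mem
      (u := fun M => ⋃ (_ : (M.map (letter g)).prod = FreeGroup.of a), valid A g M)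
      (show M ∈ (P n : Set _) from ?_)
    exact Finset.biUnion_subset_biUnion_of_subset_left _ (Finset.range_mono hmn) hM
  have hfree' : ∀ᵐ x ∂μ, ∀ h : FreeGroup α, h ≠ 1 → h • x ≠ x := ae_all_iff.2 fun h =>
    if hh : h = 1 then Eventually.of_forall fun x hne => absurd hh hne
    else (hfree h hh).mono fun x hx _ => hx
  have hlim : ∀ a, Tendsto (fun n => μ.real (U n a)ᶜ) atTop (𝓝 0) := fun a => by
    have hfull : ∀ᵐ x ∂μ, x ∈ ⋃ n, U n a := by
      filter_upwards [hconn, hfree'] with x hx hfr
      obtain ⟨M, hM, he⟩ := exists_valid (hx a)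
      have hprod : (M.map (letter g)).prod = FreeGroup.of a := by
        by_contra hne
        refine hfr _ (mt inv_mul_eq_one.1 (Ne.symm hne)) ?_
        rw [mul_smul, he, inv_smul_smul]
      refine Set.mem_iUnion.2 ⟨Encodable.encode M + 1, Set.mem_biUnion (x := M) ?_
        (Set.mem_iUnion.2 ⟨hprod, hM⟩)⟩
      simp only [P, Finset.mem_coe, Finset.mem_biUnion, Finset.mem_range]
      exact ⟨_, Nat.lt_succ_self _, by simp [Encodable.encodek]⟩
    have h1 := tendsto_measure_iInter_atTop (μ := μ) (s := fun n => (U n a)ᶜ)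
      (fun n => (hUm n a).compl.nullMeasurableSet)
      (fun m n hmn => Set.compl_subset_compl.2 (hmono a hmn)) ⟨0, measure_ne_top _ _⟩
    rw [show μ (⋂ n, (U n a)ᶜ) = 0 by
      rw [← Set.compl_iUnion]
      exact mem_ae_iff.1 hfull] at h1
    exact (ENNReal.tendsto_toReal ENNReal.zero_ne_top).comp h1
  by_cases htop : ∑' j, μ (A j) = ∞
  · rw [htop]
    exact le_top
  have key : ∀ n, (Fintype.card α : ℝ) ≤
      (∑' j, μ (A j)).toReal + ∑ a, μ.real (U n a)ᶜ := fun n => by
    have h1 := card_le_sum (μ := μ) (ι := (J n : Set ι) ⊕ α) hpres hfree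
      (A := Sum.elim (fun j => A j.1) fun a => (U n a)ᶜ)
      (fun j => by cases j; exacts [hA _, (hUm n _).compl])
      (Sum.elim (fun j => g j.1) FreeGroup.of) (Eventually.of_forall fun x a => ?_)
    · refine h1.trans ?_
      rw [Fintype.sum_sum_type]
      refine add_le_add ?_ le_rfl
      simp only [Sum.elim_inl, Finset.coe_sort_coe, Finset.sum_coe_sort (J n) fun j => μ.real (A j)]
      rw [ENNReal.tsum_toReal_eq fun j => measure_ne_top _ _]
      exact (ENNReal.summable_toReal htop).sum_le_tsum _ fun j _ => measureReal_nonneg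
    · by_cases hx : x ∈ U n a
      · simp only [U, Set.mem_iUnion] at hx
        obtain ⟨M, hM, hprod, hv⟩ := hx
        have hsub : ∀ l ∈ M, ∃ k : (J n : Set ι), (k : ι) = l.1 := fun l hl => by
          refine ⟨⟨l.1, ?_⟩, rfl⟩
          simp only [J, Finset.coe_biUnion, Set.mem_iUnion]
          exact ⟨M, hM, List.mem_toFinset.2 (List.mem_map.2 ⟨l, hl, rfl⟩)⟩
        have := connected_of_valid (fun k : (J n : Set ι) => (k : ι)) M hsub x hv
        rw [hprod] at this
        refine Relation.EqvGen.mono ?_ _ _ this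
        rintro u v ⟨k, h1, h2⟩
        exact ⟨Sum.inl k, h1, h2⟩
      · exact Relation.EqvGen.rel _ _ ⟨Sum.inr a, hx, rfl⟩
  have hle : (Fintype.card α : ℝ) ≤ (∑' j, μ (A j)).toReal := by
    refine ge_of_tendsto' (x := atTop) ?_ key
    simpa using (tendsto_const_nhds (x := (∑' j, μ (A j)).toReal) (f := atTop (α := ℕ))).add
      (tendsto_finsetSum Finset.univ fun a _ => hlim a)
  rw [← ENNReal.ofReal_toReal htop, ← ENNReal.ofReal_natCast]
  exact ENNReal.ofReal_le_ofReal hle

end FA.Gaboriau

end
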