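import Mathlib.GroupTheory.FreeGroup.Reduce
import Mathlib.MeasureTheory.Integral.DominatedConvergence
import Mathlib.MeasureTheory.MeasurableSpace.Constructions

/-!
# Measurable folding

A system is a measurable family of finite graphs over the points of a space, whose edges lie over
the edges of the orbit trees of a free group. Folding two edges over the same edge decreases the
expected numbers of vertices and edges, the second at least as much as the first.
-/

set_option autoImplicit false

noncomputable section

open MeasureTheory Filter Topology FreeGroup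

namespace FA.Gaboriau

variable {α X V E : Type*} [MeasurableSpace X] [MulAction (FreeGroup α) X]

/-- A measurable family of graphs over the orbit trees. -/
structure Sys (α X V E : Type*) [MeasurableSpace X] [MulAction (FreeGroup α) X] where
  /-- The generator below an edge. -/
  lab : E → α
  /-- The source. -/
  src : E → V
  /-- The target. -/
  tgt : E → V
  /-- The vertices over a point. -/
  pv : X → V → Bool
  /-- The edges over a point. -/
  pe : X → E → Bool
  pv_meas : Measurable pv
  pe_meas : Measurable pe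
  src_mem : ∀ y e, pe y e = true → pv y (src e) = true
  tgt_mem : ∀ y e, pe y e = true → pv (FreeGroup.of (lab e) • y) (tgt e) = true

namespace Sys

variable (S : Sys α X V E) (c : X → V → V)

/-- An edge over the generator `a` from `p` to `q`, the vertices being identified by `c`. -/
def Fwd (a : α) (p q : X × V) : Prop :=
  ∃ e, S.pe p.1 e = true ∧ S.lab e = a ∧ q.1 = FreeGroup.of a • p.1 ∧
    p.2 = c p.1 (S.src e) ∧ q.2 = c q.1 (S.tgt e)

/-- One step over a letter. -/
def Move (l : α × Bool) (p q : X × V) : Prop :=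
  if l.2 then S.Fwd c l.1 p q else S.Fwd c l.1 q p

/-- A walk over a word, read from its end. -/
def Walk : List (α × Bool) → X × V → X × V → Prop
  | [], p, q => p = q
  | l :: L, p, q => ∃ r, Walk L p r ∧ S.Move c l r q

variable {S c}

theorem Move.point {l : α × Bool} {p q : X × V} (h : S.Move c l p q) :
    q.1 = FreeGroup.mk [l] • p.1 := by
  obtain ⟨a, b⟩ := l
  cases b
  · obtain ⟨e, -, -, he, -⟩ := h
    rw [he, smul_smul, show FreeGroup.mk [(a, false)] = (FreeGroup.of a)⁻¹ from rfl,
      inv_mul_cancel, one_smul]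
  · obtain ⟨e, -, -, he, -⟩ := h
    exact he

theorem Move.rev {a : α} {b : Bool} {p q : X × V} (h : S.Move c (a, b) p q) :
    S.Move c (a, !b) q p := by
  cases b <;> exact h

theorem Walk.point {L : List (α × Bool)} {p q : X × V} (h : S.Walk c L p q) :
    q.1 = FreeGroup.mk L • p.1 := by
  induction L generalizing q with
  | nil =>
    cases h
    rw [← FreeGroup.one_eq_mk, one_smul]
  | cons l L ih =>
    obtain ⟨r, hr, hl⟩ := h
    rw [hl.point, ih hr, smul_smul, FreeGroup.mul_mk]
    rfl

theorem walk_append {L₁ L₂ : List (α × Bool)} {p q : X × V} :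
    S.Walk c (L₁ ++ L₂) p q ↔ ∃ r, S.Walk c L₂ p r ∧ S.Walk c L₁ r q := by
  induction L₁ generalizing q with
  | nil => exact ⟨fun h => ⟨q, h, rfl⟩, fun ⟨r, h, e⟩ => e ▸ h⟩
  | cons l L ih =>
    constructor
    · rintro ⟨r, hr, hl⟩
      obtain ⟨s, h1, h2⟩ := ih.1 hr
      exact ⟨s, h1, r, h2, hl⟩
    · rintro ⟨s, h1, r, h2, hl⟩
      exact ⟨r, ih.2 ⟨s, h1, h2⟩, hl⟩

theorem Walk.rev {L : List (α × Bool)} {p q : X × V} (h : S.Walk c L p q) :
    S.Walk c (FreeGroup.invRev L) q p := by
  induction L generalizing q with
  | nil => exact h.symm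
  | cons l L ih =>
    obtain ⟨r, hr, hl⟩ := h
    rw [FreeGroup.invRev_cons, walk_append]
    exact ⟨r, ⟨q, rfl, hl.rev⟩, ih hr⟩

/-- Identifying vertices carries walks to walks. -/
theorem Walk.push {L : List (α × Bool)} {p q : X × V} (h : S.Walk (fun _ => id) L p q) :
    S.Walk c L (p.1, c p.1 p.2) (q.1, c q.1 q.2) := by
  induction L generalizing q with
  | nil => cases h; rfl
  | cons l L ih =>
    obtain ⟨r, hr, hl⟩ := h
    refine ⟨_, ih hr, ?_⟩
    obtain ⟨a, b⟩ := l
    cases b
    · obtain ⟨e, he, hlab, hq, hs, ht⟩ := hl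
      exact ⟨e, he, hlab, hq, congrArg (c q.1) hs, congrArg (c r.1) ht⟩
    · obtain ⟨e, he, hlab, hq, hs, ht⟩ := hl
      exact ⟨e, he, hlab, hq, congrArg (c r.1) hs, congrArg (c q.1) ht⟩

variable (S c) in
/-- Nothing is left to fold. -/
def Stable : Prop :=
  ∀ e₁ e₂ y, S.pe y e₁ = true → S.pe y e₂ = true → S.lab e₁ = S.lab e₂ →
    (c y (S.src e₁) = c y (S.src e₂) ↔
      c (FreeGroup.of (S.lab e₁) • y) (S.tgt e₁) = c (FreeGroup.of (S.lab e₁) • y) (S.tgt e₂))

theorem Move.det (hc : S.Stable c) {l : α × Bool} {p q q' : X × V} (h : S.Move c l p q)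
    (h' : S.Move c l p q') : q = q' := by
  obtain ⟨a, b⟩ := l
  cases b
  · obtain ⟨e, he, hlab, hp, hs, ht⟩ := h
    obtain ⟨e', he', hlab', hp', hs', ht'⟩ := h'
    have hy : q.1 = q'.1 := smul_left_cancel _ (hp.symm.trans hp')
    refine Prod.ext hy ?_
    rw [hs, hs', ← hy]
    refine (hc e e' q.1 he (hy ▸ he') (hlab.trans hlab'.symm)).2 ?_
    rw [hlab, ← hp, ← ht, ← ht']
  · obtain ⟨e, he, hlab, hp, hs, ht⟩ := h
    obtain ⟨e', he', hlab', hp', hs', ht'⟩ := h'
    have hy : q.1 = q'.1 := hp.trans hp'.symm
    refine Prod.ext hy ?_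
    rw [ht, ht', ← hy, hp]
    have := (hc e e' p.1 he he' (hlab.trans hlab'.symm)).1 (hs.symm.trans hs')
    rwa [hlab] at this

/-- In a folded system walks can be reduced. -/
theorem Walk.red (hc : S.Stable c) {L L' : List (α × Bool)} (hL : FreeGroup.Red L L')
    {p q : X × V} (h : S.Walk c L p q) : S.Walk c L' p q := by
  induction hL with
  | refl => exact h
  | @tail L₁ L₂ _ hs ih =>
    cases hs with
    | @not A B a b =>
      obtain ⟨r, hr, hA⟩ := walk_append.1 ih
      obtain ⟨r₁, ⟨r₂, hB, h1⟩, h2⟩ := hr
      rw [← h1.rev.det hc (show S.Move c (a, !!b) r₁ r by rwa [Bool.not_not])] at hA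
      exact walk_append.2 ⟨r₂, hB, hA⟩

variable [Fintype V] [Fintype E]

variable (S c) in
/-- The number of vertices over a point. -/
def cl [DecidableEq V] (y : X) : ℕ :=
  ((Finset.univ.filter fun v => S.pv y v = true).image (c y)).card

variable (S c) in
/-- The number of edges leaving a point along the generators. -/
def ec [DecidableEq V] [DecidableEq α] (y : X) : ℕ :=
  ((Finset.univ.filter fun e => S.pe y e = true).image fun e =>
    (S.lab e, c y (S.src e), c (FreeGroup.of (S.lab e) • y) (S.tgt e))).card

variable (S) in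
/-- The translation from the common end of two edges to the merged vertices. -/
def tw (t : E × E × Bool) : FreeGroup α := if t.2.2 then FreeGroup.of (S.lab t.1) else 1

variable (S) in
/-- The end of an edge to be merged. -/
def endPt (t : E × E × Bool) (e : E) : V := if t.2.2 then S.tgt e else S.src e

variable (S c) in
/-- Two edges are to be folded at `y`. -/
def Fire (t : E × E × Bool) (y : X) : Prop :=
  S.pe y t.1 = true ∧ S.pe y t.2.1 = true ∧ S.lab t.1 = S.lab t.2.1 ∧
    (if t.2.2 then c y (S.src t.1) = c y (S.src t.2.1)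
      else c (FreeGroup.of (S.lab t.1) • y) (S.tgt t.1) =
        c (FreeGroup.of (S.lab t.1) • y) (S.tgt t.2.1)) ∧
    c (S.tw t • y) (S.endPt t t.1) ≠ c (S.tw t • y) (S.endPt t t.2.1)

open Classical in
variable (S c) in
/-- Fold two edges wherever possible. -/
def foldStep (t : E × E × Bool) (z : X) (v : V) : V :=
  if S.Fire c t ((S.tw t)⁻¹ • z) ∧ c z v = c z (S.endPt t t.2.1) then c z (S.endPt t t.1)
  else c z v

omit [Fintype V] [Fintype E] in
theorem foldStep_of_not {t : E × E × Bool} {z : X} (h : ¬S.Fire c t ((S.tw t)⁻¹ • z)) :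
    S.foldStep c t z = c z := by
  funext v
  simp [foldStep, h]

omit [Fintype V] [Fintype E] in
theorem fire_mem {t : E × E × Bool} {y : X} (h : S.Fire c t y) :
    S.pv (S.tw t • y) (S.endPt t t.1) = true ∧ S.pv (S.tw t • y) (S.endPt t t.2.1) = true := by
  obtain ⟨e₁, e₂, b⟩ := t
  obtain ⟨h1, h2, hl, -⟩ := h
  cases b
  · simp only [tw, endPt, Bool.false_eq_true, if_false, one_smul]
    exact ⟨S.src_mem y e₁ h1, S.src_mem y e₂ h2⟩
  · simp only [tw, endPt, if_true]
    exact ⟨S.tgt_mem y e₁ h1, hl.symm ▸ S.tgt_mem y e₂ h2⟩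

section counts

variable [DecidableEq V]

omit [Fintype E] in
open Classical in
/-- Folding removes one vertex where it happens. -/
theorem cl_foldStep (t : E × E × Bool) (z : X) :
    S.cl (S.foldStep c t) z + (if S.Fire c t ((S.tw t)⁻¹ • z) then 1 else 0) = S.cl c z := by
  by_cases h : S.Fire c t ((S.tw t)⁻¹ • z)
  swap
  · rw [if_neg h, add_zero, cl, cl, foldStep_of_not h]
  have hm := fire_mem h
  have hne := h.2.2.2.2
  rw [smul_inv_smul] at hm hne
  set A := (Finset.univ.filter fun v => S.pv z v = true).image (c z)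
  set t₁ := c z (S.endPt t t.1) with ht₁
  set t₂ := c z (S.endPt t t.2.1) with ht₂
  have hA₁ : t₁ ∈ A := Finset.mem_image_of_mem _ (by simpa using hm.1)
  have hA₂ : t₂ ∈ A := Finset.mem_image_of_mem _ (by simpa using hm.2)
  have he : (Finset.univ.filter fun v => S.pv z v = true).image (S.foldStep c t z) =
      A.erase t₂ := by
    have : S.foldStep c t z = (fun w => if w = t₂ then t₁ else w) ∘ c z := by
      funext v
      simp [foldStep, h, t₁, t₂]
    rw [this, ← Finset.image_image]
    refine Finset.ext fun w => ⟨fun hw => ?_, fun hw => ?_⟩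
    · obtain ⟨u, hu, rfl⟩ := Finset.mem_image.1 hw
      rw [Finset.mem_erase]
      split_ifs with hu'
      exacts [⟨hne, hA₁⟩, ⟨hu', hu⟩]
    · exact Finset.mem_image.2
        ⟨w, (Finset.mem_erase.1 hw).2, if_neg (Finset.mem_erase.1 hw).1⟩
  rw [if_pos h, cl, he, Finset.card_erase_add_one hA₂]
  rfl

omit [Fintype V] in
open Classical in
/-- Folding removes an edge where it happens. -/
theorem ec_foldStep [DecidableEq α] (t : E × E × Bool) (y : X) :
    S.ec (S.foldStep c t) y + (if S.Fire c t y then 1 else 0) ≤ S.ec c y := by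
  let r : X → V → V := fun z w =>
    if S.Fire c t ((S.tw t)⁻¹ • z) ∧ w = c z (S.endPt t t.2.1) then c z (S.endPt t t.1) else w
  let G : α × V × V → α × V × V := fun p => (p.1, r y p.2.1, r (FreeGroup.of p.1 • y) p.2.2)
  have he : ((Finset.univ.filter fun e => S.pe y e = true).image fun e =>
      (S.lab e, S.foldStep c t y (S.src e),
        S.foldStep c t (FreeGroup.of (S.lab e) • y) (S.tgt e))) =
      ((Finset.univ.filter fun e => S.pe y e = true).image fun e =>
        (S.lab e, c y (S.src e), c (FreeGroup.of (S.lab e) • y) (S.tgt e))).image G := by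
    rw [Finset.image_image]
    refine Finset.image_congr fun e _ => ?_
    simp [foldStep, G, r]
  rw [ec, ec, he]
  split_ifs with h
  swap
  · exact Finset.card_image_le
  refine Nat.succ_le_of_lt (lt_of_le_of_ne Finset.card_image_le fun hcard => ?_)
  obtain ⟨e₁, e₂, b⟩ := t
  obtain ⟨h1, h2, hl, hsame, hne⟩ := h
  have hinj := Finset.card_image_iff.1 hcard
  have hmem : ∀ e, S.pe y e = true → (S.lab e, c y (S.src e),
      c (FreeGroup.of (S.lab e) • y) (S.tgt e)) ∈ (((Finset.univ.filter fun e =>
        S.pe y e = true).image fun e => (S.lab e, c y (S.src e),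
          c (FreeGroup.of (S.lab e) • y) (S.tgt e)) : Finset _) : Set (α × V × V)) := fun e he =>
    Finset.mem_image_of_mem _ (by simpa using he)
  have hfire : S.Fire c (e₁, e₂, b) y := ⟨h1, h2, hl, hsame, hne⟩
  have key := hinj (hmem e₁ h1) (hmem e₂ h2) ?_
  · simp only [Prod.ext_iff] at key
    cases b
    · simp only [tw, endPt, Bool.false_eq_true, if_false, one_smul] at hne
      exact hne key.2.1
    · simp only [tw, endPt, if_true] at hne
      exact hne (key.2.2.trans (by rw [hl]))
  · cases b
    · simp only [Bool.false_eq_true, if_false] at hsame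
      simp only [tw, endPt, Bool.false_eq_true, if_false, one_smul] at hne
      simp only [G, r, tw, endPt, Bool.false_eq_true, if_false, inv_one, one_smul, hfire, true_and,
        ← hl, hsame, if_neg hne, if_true]
    · simp only [if_true] at hsame
      simp only [tw, endPt, if_true] at hne
      simp only [G, r, tw, endPt, if_true, ← hl, inv_smul_smul, hfire, true_and, hsame, if_neg hne]

end counts

section measure

variable [MeasurableSpace V] [DiscreteMeasurableSpace V] [Finite α]

omit [Fintype V] [Fintype E] [DiscreteMeasurableSpace V] [Finite α] in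
variable (S) in
theorem measurable_local (hsm : ∀ g : FreeGroup α, Measurable fun x : X => g • x) {c : X → V → V}
    (hc : Measurable c) : Measurable fun y => (c y, fun a : α => c (FreeGroup.of a • y),
      S.pe y) :=
  hc.prodMk ((measurable_pi_lambda _ fun _ => hc.comp (hsm _)).prodMk S.pe_meas)

variable (S) in
theorem measurableSet_fire (hsm : ∀ g : FreeGroup α, Measurable fun x : X => g • x)
    {c : X → V → V} (hc : Measurable c) (t : E × E × Bool) :
    MeasurableSet {y | S.Fire c t y} := by
  have e : {y | S.Fire c t y} = (fun y => (c y, fun a : α => c (FreeGroup.of a • y), S.pe y)) ⁻¹'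
      {d | d.2.2 t.1 = true ∧ d.2.2 t.2.1 = true ∧ S.lab t.1 = S.lab t.2.1 ∧
        (if t.2.2 then d.1 (S.src t.1) = d.1 (S.src t.2.1)
          else d.2.1 (S.lab t.1) (S.tgt t.1) = d.2.1 (S.lab t.1) (S.tgt t.2.1)) ∧
        (if t.2.2 then d.2.1 (S.lab t.1) else d.1) (S.endPt t t.1) ≠
          (if t.2.2 then d.2.1 (S.lab t.1) else d.1) (S.endPt t t.2.1)} := by
    ext y
    cases ht : t.2.2 <;> simp [Fire, tw, ht]
  rw [e]
  exact measurable_local S hsm hc (Set.to_countable _).measurableSet

variable (S) in
theorem measurable_foldStep (hsm : ∀ g : FreeGroup α, Measurable fun x : X => g • x)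
    {c : X → V → V} (hc : Measurable c) (t : E × E × Bool) : Measurable (S.foldStep c t) := by
  classical
  have e : S.foldStep c t = fun z => if z ∈ (fun z => (S.tw t)⁻¹ • z) ⁻¹' {y | S.Fire c t y}
      then (fun d : V → V => fun v => if d v = d (S.endPt t t.2.1) then d (S.endPt t t.1) else d v)
        (c z)
      else c z := by
    funext z v
    by_cases h : S.Fire c t ((S.tw t)⁻¹ • z) <;> simp [foldStep, h]
  rw [e]
  exact Measurable.ite (hsm _ (measurableSet_fire S hsm hc t))
    ((measurable_of_countable fun (d : V → V) v =>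
      if d v = d (S.endPt t t.2.1) then d (S.endPt t t.1) else d v).comp hc) hc

variable [DecidableEq V] [DecidableEq α] {μ : Measure X} [IsProbabilityMeasure μ]

variable (S) in
theorem integrable_counts (hsm : ∀ g : FreeGroup α, Measurable fun x : X => g • x)
    {c : X → V → V} (hc : Measurable c) :
    Integrable (fun y => (S.cl c y : ℝ)) μ ∧ Integrable (fun y => (S.ec c y : ℝ)) μ := by
  have hm₁ : Measurable fun y => (S.cl c y : ℝ) := by
    unfold cl
    exact Measurable.comp (g := fun d : (V → Bool) × (V → V) =>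
      ((((Finset.univ.filter fun v => d.1 v = true).image d.2).card : ℕ) : ℝ))
      (f := fun y => (S.pv y, c y)) (measurable_of_countable _) (S.pv_meas.prodMk hc)
  have hm₂ : Measurable fun y => (S.ec c y : ℝ) := by
    unfold ec
    exact Measurable.comp (g := fun d : (V → V) × (α → V → V) × (E → Bool) =>
      ((((Finset.univ.filter fun e => d.2.2 e = true).image fun e =>
          (S.lab e, d.1 (S.src e), d.2.1 (S.lab e) (S.tgt e))).card : ℕ) : ℝ))
      (f := fun y => (c y, fun a : α => c (FreeGroup.of a • y), S.pe y))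
      (measurable_of_countable _) (measurable_local S hsm hc)
  constructor
  · refine Integrable.of_bound hm₁.aestronglyMeasurable (Fintype.card V)
      (Eventually.of_forall fun y => ?_)
    · simp only [Real.norm_natCast, Nat.cast_le, cl]
      exact Finset.card_le_univ _
  · refine Integrable.of_bound hm₂.aestronglyMeasurable (Fintype.card E)
      (Eventually.of_forall fun y => ?_)
    · simp only [Real.norm_natCast, Nat.cast_le, ec]
      exact Finset.card_image_le.trans (Finset.card_le_univ _)

variable (S) in
/-- Folding does not increase the excess of edges over vertices. -/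
theorem excess_foldStep (hpres : ∀ g : FreeGroup α, MeasurePreserving (fun x : X => g • x) μ μ)
    {c : X → V → V} (hc : Measurable c) (t : E × E × Bool) :
    (∫ y, (S.ec (S.foldStep c t) y : ℝ) ∂μ) - ∫ y, (S.cl (S.foldStep c t) y : ℝ) ∂μ ≤
      (∫ y, (S.ec c y : ℝ) ∂μ) - ∫ y, (S.cl c y : ℝ) ∂μ := by
  classical
  have hsm := fun g => (hpres g).measurable
  have hF := measurableSet_fire S hsm hc t
  set F := {y | S.Fire c t y}
  set F' := (fun z => (S.tw t)⁻¹ • z) ⁻¹' F
  have hF' : MeasurableSet F' := hsm _ hF
  have hFF : μ.real F' = μ.real F :=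
    congrArg ENNReal.toReal ((hpres _).measure_preimage hF.nullMeasurableSet)
  obtain ⟨i1, i2⟩ := integrable_counts (μ := μ) S hsm hc
  obtain ⟨j1, j2⟩ := integrable_counts (μ := μ) S hsm (measurable_foldStep S hsm hc t)
  have k1 : Integrable (F.indicator fun _ => (1 : ℝ)) μ := (integrable_const 1).indicator hF
  have k2 : Integrable (F'.indicator fun _ => (1 : ℝ)) μ := (integrable_const 1).indicator hF'
  have hec : (∫ y, (S.ec (S.foldStep c t) y : ℝ) ∂μ) + μ.real F ≤ ∫ y, (S.ec c y : ℝ) ∂μ := by
    rw [← smul_eq_mul (μ.real F) 1 |>.trans (mul_one _), ← integral_indicator_const (1 : ℝ) hF,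
      ← integral_add j2 k1]
    refine integral_mono (j2.add k1) i2 fun y => ?_
    have := ec_foldStep (S := S) (c := c) t y
    simp only [Set.indicator_apply, F, Set.mem_ofPred_eq]
    split_ifs with h
    · rw [if_pos h] at this; exact_mod_cast this
    · rw [if_neg h, add_zero] at this; simpa using this
  have hcl : (∫ y, (S.cl (S.foldStep c t) y : ℝ) ∂μ) + μ.real F' = ∫ y, (S.cl c y : ℝ) ∂μ := by
    rw [← smul_eq_mul (μ.real F') 1 |>.trans (mul_one _), ← integral_indicator_const (1 : ℝ) hF',
      ← integral_add j1 k2]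
    refine integral_congr_ae (Eventually.of_forall fun z => ?_)
    have := cl_foldStep (S := S) (c := c) t z
    simp only [Set.indicator_apply, F', F, Set.mem_preimage, Set.mem_ofPred_eq]
    rw [← this]
    split_ifs <;> simp
  linarith

/-- **Folding bound.** A connected system over free orbits has at least as many edges, less its
vertices and the one of the tree, as there are generators. -/
theorem card_le_excess [Fintype α]
    (hpres : ∀ g : FreeGroup α, MeasurePreserving (fun x : X => g • x) μ μ) (S : Sys α X V E)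
    (main : V) (hmain : ∀ y, S.pv y main = true)
    (hreach : ∀ y v, S.pv y v = true → ∃ z L, S.Walk (fun _ => id) L (z, main) (y, v))
    (hae : ∀ᵐ x ∂μ, (∀ g : FreeGroup α, g ≠ 1 → g • x ≠ x) ∧
      ∀ g : FreeGroup α, ∃ L, S.Walk (fun _ => id) L (x, main) (g • x, main)) :
    (Fintype.card α : ℝ) ≤
      (∫ y, (S.ec (fun _ => id) y : ℝ) ∂μ) - (∫ y, (S.cl (fun _ => id) y : ℝ) ∂μ) + 1 := by
  classical
  have hsm := fun g => (hpres g).measurable
  let _ : Encodable (E × E × Bool) := Fintype.toEncodable _
  let stp : ℕ → (X → V → V) → X → V → V := fun n c =>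
    match Encodable.decode (α := E × E × Bool) (Nat.unpair n).1 with
    | some t => S.foldStep c t
    | none => c
  let st : ℕ → X → V → V := fun n => Nat.rec (fun _ => id) (fun n c => stp n c) n
  have hst : ∀ n, st (n + 1) = match Encodable.decode (α := E × E × Bool) (Nat.unpair n).1 with
      | some t => S.foldStep (st n) t
      | none => st n := fun n => rfl
  have hstm : ∀ n, Measurable (st n) := by
    intro n
    induction n with
    | zero => exact measurable_const
    | succ n ih =>
      rw [hst]
      split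
      exacts [measurable_foldStep S hsm ih _, ih]
  let excess : ℕ → ℝ := fun n => (∫ y, (S.ec (st n) y : ℝ) ∂μ) - ∫ y, (S.cl (st n) y : ℝ) ∂μ
  have hexc : ∀ n, excess n ≤ excess 0 := by
    intro n
    induction n with
    | zero => rfl
    | succ n ih =>
      refine le_trans ?_ ih
      simp only [excess, hst]
      split
      exacts [excess_foldStep S hpres (hstm n) _, le_rfl]
  -- the process stops at every point
  have hcl : ∀ n z, S.cl (st (n + 1)) z ≤ S.cl (st n) z ∧
      (S.cl (st (n + 1)) z = S.cl (st n) z → st (n + 1) z = st n z) := fun n z => by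
    rw [hst]
    split
    · rename_i t _
      have := cl_foldStep (S := S) (c := st n) t z
      by_cases h : S.Fire (st n) t ((S.tw t)⁻¹ • z)
      · rw [if_pos h] at this
        exact ⟨by omega, fun he => absurd he (by omega)⟩
      · exact ⟨by omega, fun _ => foldStep_of_not h⟩
    · exact ⟨le_rfl, fun _ => rfl⟩
  have hstop : ∀ z, ∃ N, ∀ n, N ≤ n → st n z = st N z := fun z => by
    have hanti : Antitone fun n => S.cl (st n) z := antitone_nat_of_succ_le fun n => (hcl n z).1
    obtain ⟨N, hN⟩ : ∃ N, ∀ n, S.cl (st N) z ≤ S.cl (st n) z := by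
      have hex : ∃ k, ∃ N, S.cl (st N) z = k := ⟨_, 0, rfl⟩
      obtain ⟨N, hN⟩ := Nat.find_spec hex
      exact ⟨N, fun n => hN.trans_le (Nat.find_min' hex ⟨n, rfl⟩)⟩
    refine ⟨N, fun n hn => ?_⟩
    induction n, hn using Nat.le_induction with
    | base => rfl
    | succ n hn ih =>
      exact ((hcl n z).2 (le_antisymm (hcl n z).1 ((hanti hn).trans (hN (n + 1))))).trans ih
  choose N hN using hstop
  let c : X → V → V := fun z => st (N z) z
  have hc : ∀ z n, N z ≤ n → st n z = c z := hN
  have hstab : S.Stable c := by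
    intro e₁ e₂ y h1 h2 hl
    set z := FreeGroup.of (S.lab e₁) • y with hz
    have hnext : ∀ b, ¬(S.Fire c (e₁, e₂, b) y) := fun b hf => by
      set t : E × E × Bool := (e₁, e₂, b)
      set n := Nat.pair (Encodable.encode t) (max (N y) (N z)) with hn
      have hle : max (N y) (N z) ≤ n := Nat.right_le_pair _ _
      have hy := hc y n (by omega)
      have hz' := hc z n (by omega)
      have hy1 := hc y (n + 1) (by omega)
      have hz1 := hc z (n + 1) (by omega)
      have hf' : S.Fire (st n) t y := by
        obtain ⟨f1, f2, f3, f4, f5⟩ := hf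
        refine ⟨f1, f2, f3, ?_, ?_⟩
        · cases b <;> simpa [t, ← hz, hy, hz'] using f4
        · cases b <;> simpa [t, tw, endPt, ← hz, hy, hz'] using f5
      have hdrop := cl_foldStep (S := S) (c := st n) t (S.tw t • y)
      rw [inv_smul_smul, if_pos hf'] at hdrop
      have hst' : st (n + 1) = S.foldStep (st n) t := by
        rw [hst, hn, Nat.unpair_pair, Encodable.encodek]
      have hw : st (n + 1) (S.tw t • y) = st n (S.tw t • y) := by
        cases b
        · simp only [t, tw, Bool.false_eq_true, if_false, one_smul, hy, hy1]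
        · simp only [t, tw, if_true, ← hz, hz', hz1]
      have : S.cl (S.foldStep (st n) t) (S.tw t • y) = S.cl (st n) (S.tw t • y) := by
        rw [← hst']
        simp only [cl, hw]
      omega
    refine ⟨fun hs => not_not.1 fun hne => hnext true ⟨h1, h2, hl, by simpa using hs, ?_⟩,
      fun ht => not_not.1 fun hne => hnext false ⟨h1, h2, hl, by simpa [← hz] using ht, ?_⟩⟩
    · simpa [tw, endPt, ← hz] using hne
    · simpa [tw, endPt] using hne
  -- the limit is the tree
  have hlim : ∀ᵐ x ∂μ, Tendsto (fun n => (S.cl (st n) x : ℝ)) atTop (𝓝 1) ∧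
      ∀ n, Fintype.card α ≤ S.ec (st n) x := by
    filter_upwards [hae] with y ⟨hfree, hconn⟩
    refine ⟨?_, fun n => ?_⟩
    · have hone : S.cl c y = 1 := by
        refine Finset.card_eq_one.2 ⟨c y main, Finset.eq_singleton_iff_unique_mem.2
          ⟨Finset.mem_image_of_mem _ (by simpa using hmain y), ?_⟩⟩
        simp only [Finset.mem_image, Finset.mem_filter, Finset.mem_univ, true_and]
        rintro _ ⟨v, hv, rfl⟩
        obtain ⟨z, L, hL⟩ := hreach y v hv
        obtain ⟨L₀, hL₀⟩ := hconn (FreeGroup.mk L)⁻¹
        rw [show (FreeGroup.mk L)⁻¹ • y = z from inv_smul_eq_iff.2 hL.point] at hL₀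
        have hw : S.Walk c (L ++ L₀) (y, c y main) (y, c y v) :=
          (walk_append.2 ⟨_, hL₀, hL⟩ : S.Walk (fun _ => id) (L ++ L₀) (y, main) (y, v)).push
        have h1 : FreeGroup.mk (L ++ L₀) = 1 :=
          not_not.1 fun hne => hfree _ hne hw.point.symm
        have h2 := hw.red hstab FreeGroup.reduce.red
        rw [← FreeGroup.toWord_mk, h1, FreeGroup.toWord_one] at h2
        exact (congrArg Prod.snd h2).symm
      refine tendsto_const_nhds.congr' ((eventually_ge_atTop (N y)).mono fun n hn => ?_)
      simp only [cl] at hone ⊢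
      rw [hc y n hn, hone, Nat.cast_one]
    · refine le_trans ?_ (Finset.card_image_le (f := Prod.fst))
      refine (Finset.card_le_card (s := Finset.univ) fun a _ => ?_)
      obtain ⟨L, hL⟩ := hconn (FreeGroup.of a)
      have hw := hL.push (c := c)
      have h1 : FreeGroup.mk L = FreeGroup.of a := by
        by_contra hne
        refine hfree _ (mt inv_mul_eq_one.1 (Ne.symm hne)) ?_
        rw [mul_smul, inv_smul_eq_iff]
        exact hw.point.symm
      have h2 := hw.red hstab FreeGroup.reduce.red
      rw [← FreeGroup.toWord_mk, h1, FreeGroup.toWord_of] at h2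
      obtain ⟨r, rfl, e, he, hlab, -⟩ := h2
      simp only [Finset.mem_image, Finset.mem_filter, Finset.mem_univ, true_and]
      exact ⟨_, ⟨e, he, rfl⟩, hlab⟩
  have hint : Tendsto (fun n => ∫ y, (S.cl (st n) y : ℝ) ∂μ) atTop (𝓝 1) := by
    have := tendsto_integral_of_dominated_convergence (μ := μ) (F := fun n y => (S.cl (st n) y : ℝ))
      (f := fun _ => (1 : ℝ)) (fun _ => (Fintype.card V : ℝ))
      (fun n => (integrable_counts S hsm (hstm n)).1.1) (integrable_const _)
      (fun n => Eventually.of_forall fun y => by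
        simp only [Real.norm_natCast, Nat.cast_le, cl]
        exact Finset.card_le_univ _)
      (hlim.mono fun y hy => hy.1)
    simpa using this
  refine le_of_forall_pos_le_add fun ε hε => ?_
  obtain ⟨n, hn⟩ := (hint.eventually_lt_const (lt_add_of_pos_right 1 hε)).exists
  have h1 : (Fintype.card α : ℝ) ≤ ∫ y, (S.ec (st n) y : ℝ) ∂μ := by
    have := integral_mono_ae (integrable_const (Fintype.card α : ℝ))
      (integrable_counts (μ := μ) S hsm (hstm n)).2
      (hlim.mono fun y hy => Nat.cast_le.2 (hy.2 n))
    simpa using this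
  have h2 := hexc n
  simp only [excess] at h2
  rw [show st 0 = fun _ => id from rfl] at h2
  linarith

end measure

end Sys

end FA.Gaboriau

end
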